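import Mathlib
import Fermat.Prelude.Def_ModularCurve_GenusNumerics

/-!
# RED/RB: numerics for the levels divisible by `4` or `9`
-/

set_option autoImplicit false
open ModularCurve

namespace Fermat.Agent.RED.RB

theorem nuTwo_eq_zero_of_dvd {m N : ℕ} (h : m ∣ N) (hm : ∀ x : ZMod m, x ^ 2 + 1 ≠ 0) :
    nuTwo N = 0 := by
  have : IsEmpty {x : ZMod N // x ^ 2 + 1 = 0} :=
    ⟨fun x => hm (ZMod.castHom h (ZMod m) x.1) (by
      have := congrArg (ZMod.castHom h (ZMod m)) x.2
      rwa [map_add, map_pow, map_one, map_zero] at this)⟩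
  exact Nat.card_of_isEmpty

theorem nuThree_eq_zero_of_dvd {m N : ℕ} (h : m ∣ N) (hm : ∀ x : ZMod m, x ^ 2 + x + 1 ≠ 0) :
    nuThree N = 0 := by
  have : IsEmpty {x : ZMod N // x ^ 2 + x + 1 = 0} :=
    ⟨fun x => hm (ZMod.castHom h (ZMod m) x.1) (by
      have := congrArg (ZMod.castHom h (ZMod m)) x.2
      rwa [map_add, map_add, map_pow, map_one, map_zero] at this)⟩
  exact Nat.card_of_isEmpty

theorem nuTwo_eq_zero {N : ℕ} (h : 4 ∣ N ∨ 9 ∣ N) : nuTwo N = 0 := by
  rcases h with h | h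
  · exact nuTwo_eq_zero_of_dvd h (by decide)
  · exact nuTwo_eq_zero_of_dvd h (by decide)

theorem nuThree_eq_zero {N : ℕ} (h : 4 ∣ N ∨ 9 ∣ N) : nuThree N = 0 := by
  rcases h with h | h
  · exact nuThree_eq_zero_of_dvd h (by decide)
  · exact nuThree_eq_zero_of_dvd h (by decide)

theorem dedekindPsi_four : dedekindPsi 4 = 6 := by decide +kernel

theorem dedekindPsi_nine : dedekindPsi 9 = 12 := by decide +kernel

theorem cuspCount_four : cuspCount 4 = 3 := by decide +kernel

theorem cuspCount_nine : cuspCount 9 = 4 := by decide +kernel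

end Fermat.Agent.RED.RB
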