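import Fermat.Agent.RED.RB.Defs
import Fermat.Agent.RED.RB.Numerics
import Fermat.Agent.S24.Assembly
import Fermat.Agent.S24.CharpolyAlt
import Fermat.Agent.S24.CuspFinal

/-!
# RED/RB: [G0] the Riemann genus of `F_N` in characteristic `0` for `4 ∣ N` or `9 ∣ N`
-/

set_option autoImplicit false
noncomputable section
open AlgebraicCurve IntermediateField ModularCurve
open Fermat.Agent.S24

namespace Fermat.Agent.RED.RB

variable (N : ℕ) [NeZero N]

theorem isFiniteParam_jF : IsFiniteParam Kb (jF N) := isFiniteParam_jF_of N (CPAlt.charpolyCoeff N)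

theorem isSepParam_jF : IsSepParam Kb (jF N) := IsSepParam.of_charZero (isFiniteParam_jF N)

theorem finrank_jF : Module.finrank Kb⟮jF N⟯ (FN N) = dedekindPsi N := by
  rw [(degree_of_charpolyCoeff N (CPAlt.charpolyCoeff N)).2]
  exact (targetOrbits N).1

theorem card_poles_jF : Nat.card {v : Place Kb (FN N) // v.ord (jF N) < 0} = cuspCount N := by
  have h : TargetCusp N := CuspF.targetCusp_of N (isFiniteParam_jF N)
    (degree_of_charpolyCoeff N (CPAlt.charpolyCoeff N)).2
  rw [TargetCusp] at h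
  rw [h]
  exact (targetOrbits N).2.2.2

/-- [G0]: `12 g = 12 + ψ(N) - 6 ε(N)`. -/
theorem g0 (h49 : 4 ∣ N ∨ 9 ∣ N) (hRH : RHTame Kb (FN N) (jF N)) :
    12 * gR Kb (FN N) = 12 + (dedekindPsi N : ℤ) - 6 * (cuspCount N : ℤ) := by
  classical
  have hP := CPAlt.charpolyCoeff N
  obtain ⟨hψ, ho2, ho3, -⟩ := targetOrbits N
  have hgen : TargetGeneric N := targetGeneric_of_charpolyCoeff N hP
  have hrho : TargetRho N := targetRho_of_charpolyCoeff N hP
  have hi : TargetI N := targetI_of_charpolyCoeff N hP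
  rw [TargetRho] at hrho
  rw [TargetI] at hi
  have hne : (0 : Kb) ≠ 1728 := by norm_num
  have h := hRH {0, 1728} (by
    intro c hc
    simp only [Finset.mem_insert, Finset.mem_singleton, not_or] at hc
    rw [hgen c hc.1 hc.2, finrank_jF, hψ])
  rw [Finset.sum_pair hne, hrho, hi, card_poles_jF, finrank_jF] at h
  rw [nuTwo_eq_zero h49] at ho2
  rw [nuThree_eq_zero h49] at ho3
  have ho2' : (2 : ℤ) * orbCount N ModularGroup.S = dedekindPsi N := by exact_mod_cast ho2
  have ho3' : (3 : ℤ) * orbCount N (ModularGroup.S * ModularGroup.T) = dedekindPsi N := by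
    exact_mod_cast ho3
  linarith

end Fermat.Agent.RED.RB
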