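import Fermat.Agent.RED.FF.Riemann

/-!
# RED/RB: the shapes of the Riemann–Hurwitz statements used in the genus comparison
-/

set_option autoImplicit false
noncomputable section
open AlgebraicCurve IntermediateField

namespace Fermat.Agent.RED.RB

/-- (RH-tame) for the parameter `x`: Riemann–Hurwitz with exact (tame) ramification terms. -/
def RHTame (K F : Type*) [Field K] [Field F] [Algebra K F] (x : F) : Prop :=
  ∀ B : Finset K,
    (∀ c ∉ B, Nat.card {v : Place K F // 0 < v.ord (x - algebraMap K F c)} =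
      Module.finrank K⟮x⟯ F) →
    2 * gR K F - 2 = -2 * (Module.finrank K⟮x⟯ F : ℤ)
      + ∑ c ∈ B, ((Module.finrank K⟮x⟯ F : ℤ)
          - Nat.card {v : Place K F // 0 < v.ord (x - algebraMap K F c)})
      + ((Module.finrank K⟮x⟯ F : ℤ) - Nat.card {v : Place K F // v.ord x < 0})

/-- (RH-rel) for `F₁ ⊆ F₂` and `x ∈ F₁`: the relative Riemann–Hurwitz inequality, keeping only the
contribution of the poles of `x`. -/
def RHRel (K F₁ F₂ : Type*) [Field K] [Field F₁] [Field F₂] [Algebra K F₁] [Algebra K F₂]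
    [Algebra F₁ F₂] (x : F₁) : Prop :=
  (Module.finrank F₁ F₂ : ℤ) * (2 * gR K F₁ - 2)
    + (Module.finrank F₁ F₂ : ℤ) * Nat.card {v : Place K F₁ // v.ord x < 0}
    - Nat.card {v : Place K F₂ // v.ord (algebraMap F₁ F₂ x) < 0} ≤ 2 * gR K F₂ - 2

end Fermat.Agent.RED.RB
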