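import Fermat.Agent.RED.RB.Tower
import Fermat.Agent.RED.RB.CharZero

/-!
# RED/RB: [GEN] `gR(F_N) ≤ gR(Fb_N)` for `4 ∣ N` or `9 ∣ N`, from the Riemann–Hurwitz statements
-/

set_option autoImplicit false
set_option linter.style.haveILetI false
noncomputable section
open AlgebraicCurve IntermediateField ModularCurve
open Fermat.Agent.S24 Fermat.Agent.RED.Cusp

namespace Fermat.Agent.RED.RB

variable (N : ℕ) [NeZero N] (k : Type*) [Field k] [IsAlgClosed k] (ℓ : ℕ) [Fact ℓ.Prime]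
  [CharP k ℓ]

/-- [GEN]: good reduction in the form `g ≤ gbar`, from (RH-tame) in characteristic `0` and
(RH-rel) in characteristic `ℓ`. -/
theorem gR_le_of_RH (hℓN : ¬ ℓ ∣ N) (h49 : 4 ∣ N ∨ 9 ∣ N)
    (hT : RHTame Kb (FN N) (jF N))
    (hrel4 : ∀ h : 4 ∣ N, letI := algFb k h; RHRel k (Fb k 4) (Fb k N) (jb k 4))
    (hrel9 : ∀ h : 9 ∣ N, letI := algFb k h; RHRel k (Fb k 9) (Fb k N) (jb k 9)) :
    gR Kb (FN N) ≤ gR k (Fb k N) := by
  have h0 := g0 N h49 hT
  have hb : 12 + (dedekindPsi N : ℤ) - 6 * (cuspCount N : ℤ) ≤ 12 * gR k (Fb k N) := by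
    rcases h49 with h | h
    · exact genb_of_rel k ℓ h hℓN (by rw [cuspCount_four, dedekindPsi_four]; norm_num) (hrel4 h)
    · exact genb_of_rel k ℓ h hℓN (by rw [cuspCount_nine, dedekindPsi_nine]; norm_num) (hrel9 h)
  linarith

end Fermat.Agent.RED.RB
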