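import Fermat.Agent.RED.RB.Defs
import Fermat.Agent.RED.RB.Numerics
import Fermat.Agent.RED.Cusp.Final

/-!
# RED/RB: the tower `Fb_M ⊆ Fb_N` and [GEN-b]: lower bound for the genus in characteristic `ℓ`
-/

set_option autoImplicit false
set_option linter.style.haveILetI false
noncomputable section
open AlgebraicCurve IntermediateField ModularCurve
open Fermat.Agent.RED.Cusp

namespace Fermat.Agent.RED.RB

section abstract

variable {K F₁ F₂ : Type*} [Field K] [Field F₁] [Field F₂] [Algebra K F₁] [Algebra K F₂]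
  [Algebra F₁ F₂] [IsScalarTower K F₁ F₂]

/-- tower law over `K(x)`, `x ∈ F₁ ⊆ F₂`. -/
theorem finrank_adjoin_tower (x : F₁) :
    Module.finrank K⟮algebraMap F₁ F₂ x⟯ F₂ = Module.finrank K⟮x⟯ F₁ * Module.finrank F₁ F₂ := by
  let φ : F₁ →ₐ[K] F₂ := IsScalarTower.toAlgHom K F₁ F₂
  rw [Module.finrank_mul_finrank K⟮x⟯ F₁ F₂]
  have hmap : (K⟮x⟯).map φ = K⟮algebraMap F₁ F₂ x⟯ := by
    rw [adjoin_map, Set.image_singleton]
    rfl
  let e : K⟮x⟯ ≃+* K⟮algebraMap F₁ F₂ x⟯ :=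
    ((equivMap K⟮x⟯ φ).trans (equivOfEq hmap)).toRingEquiv
  refine (Algebra.finrank_eq_of_equiv_equiv e (RingEquiv.refl F₂) ?_).symm
  ext a
  rfl

end abstract

section tower

variable (k : Type*) [Field k] {M N : ℕ} [NeZero M] [NeZero N]

/-- the algebra structure of `Fb_N` over `Fb_M`, `M ∣ N`. -/
@[instance_reducible] def algFb (h : M ∣ N) : Algebra (Fb k M) (Fb k N) :=
  (IntermediateField.inclusion (full_degeneracyC_le k h)).toRingHom.toAlgebra

theorem isScalarTower_algFb (h : M ∣ N) :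
    letI := algFb k h
    IsScalarTower k (Fb k M) (Fb k N) :=
  letI := algFb k h
  IsScalarTower.of_algebraMap_eq (fun _ => rfl)

theorem algebraMap_jb (h : M ∣ N) :
    letI := algFb k h
    algebraMap (Fb k M) (Fb k N) (jb k M) = jb k N := rfl

variable [IsAlgClosed k] (ℓ : ℕ) [Fact ℓ.Prime] [CharP k ℓ]

theorem dedekindPsi_eq_mul (h : M ∣ N) (hℓN : ¬ ℓ ∣ N) :
    letI := algFb k h
    dedekindPsi N = dedekindPsi M * Module.finrank (Fb k M) (Fb k N) := by
  letI := algFb k h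
  haveI := isScalarTower_algFb k h
  have hℓM : ¬ ℓ ∣ M := fun h' => hℓN (h'.trans h)
  have h1 := finrank_adjoin_tower (K := k) (F₁ := Fb k M) (F₂ := Fb k N) (jb k M)
  rw [algebraMap_jb, finrank_jb N k ℓ hℓN, finrank_jb M k ℓ hℓM] at h1
  exact h1

/-- [GEN-b] from (RH-rel) for `Fb_M ⊆ Fb_N`, `M = 4` or `9`. -/
theorem genb_of_rel (h : M ∣ N) (hℓN : ¬ ℓ ∣ N)
    (hM : 6 * ((cuspCount M : ℤ) - 2) = dedekindPsi M)
    (hrel : letI := algFb k h; RHRel k (Fb k M) (Fb k N) (jb k M)) :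
    12 + (dedekindPsi N : ℤ) - 6 * (cuspCount N : ℤ) ≤ 12 * gR k (Fb k N) := by
  letI := algFb k h
  have hℓM : ¬ ℓ ∣ M := fun h' => hℓN (h'.trans h)
  have h1 := dedekindPsi_eq_mul k ℓ h hℓN
  have h2 : RHRel k (Fb k M) (Fb k N) (jb k M) := hrel
  rw [RHRel, algebraMap_jb, card_poles_jb N k ℓ hℓN, card_poles_jb M k ℓ hℓM] at h2
  have h3 : 0 ≤ gR k (Fb k M) := (isSepParam_jb M k ℓ hℓM).gR_nonneg
  set d : ℕ := Module.finrank (Fb k M) (Fb k N) with hd
  have h1' : (dedekindPsi N : ℤ) = dedekindPsi M * d := by exact_mod_cast h1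
  have h4 : (0 : ℤ) ≤ (d : ℤ) * gR k (Fb k M) := mul_nonneg (by positivity) h3
  rw [h1', ← hM]
  nlinarith

end tower

end Fermat.Agent.RED.RB
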